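import Fermat.Agent.S33.Final
import Fermat.Agent.S33.EV.Main
import Fermat.Agent.S33.N1.Approx
import Fermat.Agent.S33.N1.MainOf
import Fermat.Agent.S33.O.Main

set_option autoImplicit false

/-!
# S33 / N / OfKey15 : chapter (N) and the frozen statement, from the statement `KeyStatement`
-/

noncomputable section

namespace Fermat.Agent.S33.N15

open AlgebraicCurve ModularCurve
open Fermat.Agent.S24 (Kb FN isFF1_FN)
open Fermat.Agent.GES Fermat.Agent.NEW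
open Fermat.Agent.S41.WP (weil cf)

/-- the statement of chapter KEY. -/
def KeyStatement : Prop :=
  ∀ (M p r : ℕ) [NeZero M] [NeZero p], p.Prime → p ≠ 2 → ¬ p ∣ M →
    ((p ≠ 3 ∧ r = 3) ∨ (p = 3 ∧ r = 2)) → r ∣ M → ∀ (A : ValuationSubring Kb),
    A.LiesOverPrime p → ∀ (n : ℕ) [NeZero (p ^ n)] (f1 : FN (M * p)), S35.GI A f1.1 →
    S35.GI A (S35.WF M p f1).1 → ∀ t ∈ A.inertiaSubgroupIn ℚ, ∀ y : VN (M * p) (p ^ n),
    ∃ (G : DN (M * p) (p ^ n)) (Γ : Finset Kb),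
      Vm.mk G = rhoV (M * p) (p ^ n) t y - y ∧ (∀ γ ∈ Γ, γ ∈ A ∧ γ ∉ A.nonunits) ∧
      ∀ v : Place Kb (FN (M * p)),
        EV.IntAt (isFF1_FN (M * p)) A v f1 ∨ EV.NearAt (isFF1_FN (M * p)) A Γ v (cf G)

/-- chapter (N) from KEY. -/
theorem hypN_of_key (hkey : KeyStatement) {p r : ℕ} [NeZero p] (hp : p.Prime) (hp2 : p ≠ 2)
    (hr : (p ≠ 3 ∧ r = 3) ∨ (p = 3 ∧ r = 2)) (M : ℕ) [NeZero M] (hpM : ¬ p ∣ M) (hrM : r ∣ M) :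
    HypN p M := by
  intro P hP n _ x hx ha hb t ht y
  have hc : Nat.Coprime p M := (Nat.Prime.coprime_iff_not_dvd hp).2 hpM
  obtain ⟨f, f1, hf, hff, h1, h2⟩ := N1.n1_of_glue
    (fun x c h1 h2 => N1.W.glue M p hp hc hP (p ^ n) x c h1 h2) hp hpM hP x hx ha hb (n + 1)
  obtain ⟨G, Γ, hG, hΓ, hv⟩ := hkey M p r hp hp2 hpM hr hrM P hP n f1 h1 h2 t ht y
  rw [← hf, ← hG]
  exact EV.weil_eq_one_of_key (M * p) hp hp2 hP n f G f1 hff Γ hΓ hv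

variable {p : ℕ} {N : ℕ} [NeZero N] {S : Finset ℕ}
  {𝒪 : Type} [CommRing 𝒪] [IsDomain 𝒪] [IsDiscreteValuationRing 𝒪]
  [IsAdicComplete (IsLocalRing.maximalIdeal 𝒪) 𝒪]
  {θ : CuspForm.heckeAlgebra N 2 (↑S : Set ℕ) →+* IsLocalRing.ResidueField 𝒪}
  {T : Type} [CommRing T] [IsLocalRing T] [IsNoetherianRing T]
  [IsAdicComplete (IsLocalRing.maximalIdeal T) T] [Algebra 𝒪 T] [IsLocalHom (algebraMap 𝒪 T)]
  [Module.Finite 𝒪 T] [Module.Free 𝒪 T]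

/-- **S33** from KEY. -/
theorem s33_of_key (hkey : KeyStatement) [CharZero 𝒪]
    (hp : p.Prime) (hp2 : p ≠ 2) (hp𝒪 : (p : 𝒪) ∈ IsLocalRing.maximalIdeal 𝒪)
    (hN : p ∣ N ∧ ¬ p ^ 2 ∣ N) (hNS : ∀ q : ℕ, q.Prime → q ∣ N → q ∈ S)
    (H : CuspForm.HeckeGaloisRepDatum N (↑S : Set ℕ) 𝒪 θ T)
    (hres : (GaloisRepAdic.ofResidualGaloisRep H.ρ.residual).IsOrdinaryAt p) :
    H.ρ.IsOrdinaryAt p := by
  have : NeZero p := ⟨hp.ne_zero⟩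
  obtain ⟨r, hr, hr0, hpr⟩ : ∃ r : ℕ, ((p ≠ 3 ∧ r = 3) ∨ (p = 3 ∧ r = 2)) ∧ r ≠ 0 ∧ ¬ p ∣ r := by
    by_cases h3 : p = 3
    · exact ⟨2, Or.inr ⟨h3, rfl⟩, by norm_num, by rw [h3]; norm_num⟩
    · refine ⟨3, Or.inl ⟨h3, rfl⟩, by norm_num, fun h => h3 ?_⟩
      exact (Nat.prime_dvd_prime_iff_eq hp Nat.prime_three).1 h
  have : NeZero r := ⟨hr0⟩
  exact final hp hp2 hp𝒪 hN hNS H hres r hpr
    (fun M _ hpM P hP n => O.o_main M p hp hp2 hpM n P hP)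
    (fun M _ hpM hrM => hypN_of_key hkey hp hp2 hr M hpM hrM)

end Fermat.Agent.S33.N15
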