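import Fermat.Agent.S33.Geo
import Fermat.Agent.S33.N1.Main
import Fermat.Agent.S33.Key.Main

set_option autoImplicit false

/-!
# S33 / N / Main : chapter (N), unconditional
-/

noncomputable section

namespace Fermat.Agent.S33.N

open AlgebraicCurve ModularCurve
open Fermat.Agent.S24 (Kb FN isFF1_FN)
open Fermat.Agent.GES Fermat.Agent.NEW
open Fermat.Agent.S41.WP

/-- **chapter (N)**. -/
theorem main : NStatement := by
  intro M p r _ _ n _ hp hp2 hpM hr hrM P hP t ht a ha x hx h1 h2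
  refine eps_of_orth (M * p) x t a ha (fun y => ?_)
  obtain ⟨f, f1, hfx, hff, hg1, hg2⟩ := N1.n1 hp hpM hP x hx h1 h2 (n + 1)
  obtain ⟨G, Γ, hGy, hΓ, hkey⟩ := Key.key M p r n hp hpM hr hrM P hP f1 hg1 hg2 t ht y
  rw [← hfx, ← hGy]
  exact EV.weil_eq_one_of_key (M * p) hp hp2 hP n f G f1 hff Γ hΓ hkey

end Fermat.Agent.S33.N
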