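import Fermat.Agent.S33.Geo
import Fermat.Agent.S33.EV.Main
import Fermat.Agent.S33.N1.MainOf
import Fermat.Agent.S33.N1.Approx

set_option autoImplicit false

/-!
# S33 / N / MainOf : chapter (N) from the statement `KeyS`

`KeyS` : for `f₁` Gauss-integral at both branches, `t` in the inertia group and a class `y`, the class `(t - 1) y`
has a representative `G` which is, at every place where `f₁` is not `A`-integral, congruent to one of finitely many units.
-/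

noncomputable section

namespace Fermat.Agent.S33.N

open AlgebraicCurve ModularCurve
open Fermat.Agent.S24 (Kb FN isFF1_FN)
open Fermat.Agent.GES Fermat.Agent.NEW
open Fermat.Agent.S41.WP

/-- the statement of chapter KEY. -/
def KeyS : Prop :=
  ∀ (M p r : ℕ) [NeZero M] [NeZero p] (n : ℕ) [NeZero (p ^ n)], p.Prime → p ≠ 2 → ¬ p ∣ M →
    ((p ≠ 3 ∧ r = 3) ∨ (p = 3 ∧ r = 2)) → r ∣ M → ∀ (A : ValuationSubring Kb),
    A.LiesOverPrime p → ∀ f1 : FN (M * p), S35.GI A f1.1 → S35.GI A (S35.WF M p f1).1 →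
    ∀ t ∈ A.inertiaSubgroupIn ℚ, ∀ y : VN (M * p) (p ^ n),
    ∃ (G : DN (M * p) (p ^ n)) (Γ : Finset Kb),
      Vm.mk G = rhoV (M * p) (p ^ n) t y - y ∧ (∀ γ ∈ Γ, γ ∈ A ∧ γ ∉ A.nonunits) ∧
      ∀ v : Place Kb (FN (M * p)),
        EV.IntAt (isFF1_FN (M * p)) A v f1 ∨ EV.NearAt (isFF1_FN (M * p)) A Γ v (cf G)

theorem main_of_key (hK : KeyS) : NStatement := by
  intro M p r _ _ n _ hp hp2 hpM hr hrM P hP t ht a ha x hx h1 h2
  have hc : Nat.Coprime p M := (Nat.Prime.coprime_iff_not_dvd hp).2 hpM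
  obtain ⟨d1, d2⟩ := N1.deep hp hpM hP x hx h1 h2 (n + 1)
  obtain ⟨f, f1, hf, hff, g1, g2⟩ := N1.W.glue M p hp hc hP (p ^ n) x (n + 1) d1 d2
  refine eps_of_orth (M * p) x t a ha (fun y => ?_)
  obtain ⟨G, Γ, hG, hΓ, hkey⟩ := hK M p r n hp hp2 hpM hr hrM P hP f1 g1 g2 t ht y
  rw [← hf, ← hG]
  exact EV.weil_eq_one_of_key (M * p) hp hp2 hP n f G f1 hff Γ hΓ hkey

end Fermat.Agent.S33.N
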