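import Fermat.Agent.S33.Final
import Fermat.Agent.S33.N1.Main
import Fermat.Agent.S33.EV.Main
import Fermat.Agent.S33.O.Stmt

set_option autoImplicit false

/-!
# S33 / N / OfKey11 : `HypN` and the frozen statement from the statement `KEY`
-/

namespace Fermat.Agent.S33.K11

open AlgebraicCurve ModularCurve
open Fermat.Agent.S24 (Kb FN isFF1_FN)
open Fermat.Agent.GES Fermat.Agent.NEW
open Fermat.Agent.S41.WP (weil cf)

/-- the statement `KEY` at level `M * p`. -/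
def KeyStatement (p M : ℕ) [NeZero M] [NeZero p] : Prop :=
  ∀ A : ValuationSubring Kb, A.LiesOverPrime p → ∀ (n : ℕ) (f1 : FN (M * p)),
    S35.GI A f1.1 → S35.GI A (S35.WF M p f1).1 → ∀ t ∈ A.inertiaSubgroupIn ℚ,
      ∀ y : VN (M * p) (p ^ n), ∃ (G : DN (M * p) (p ^ n)) (Γ : Finset Kb),
        Vm.mk G = rhoV (M * p) (p ^ n) t y - y ∧ (∀ γ ∈ Γ, γ ∈ A ∧ γ ∉ A.nonunits) ∧
        ∀ v : Place Kb (FN (M * p)),
          EV.IntAt (isFF1_FN (M * p)) A v f1 ∨ EV.NearAt (isFF1_FN (M * p)) A Γ v (cf G)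

theorem hypN_of_key {p M : ℕ} [NeZero M] [NeZero p] (hp : p.Prime) (hp2 : p ≠ 2)
    (hpM : ¬ p ∣ M) (hkey : KeyStatement p M) : HypN p M := by
  intro P hP n _ x hx ha hb t ht y
  obtain ⟨f, f1, rfl, hff, h1, h2⟩ := N1.n1 hp hpM hP x hx ha hb (n + 1)
  obtain ⟨G, Γ, hG, hΓ, hk⟩ := hkey P hP n f1 h1 h2 t ht y
  rw [← hG]
  exact EV.weil_eq_one_of_key (M * p) hp hp2 hP n f G f1 hff Γ hΓ hk

variable {p : ℕ} {N : ℕ} [NeZero N] {S : Finset ℕ}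
  {𝒪 : Type} [CommRing 𝒪] [IsDomain 𝒪] [IsDiscreteValuationRing 𝒪]
  [IsAdicComplete (IsLocalRing.maximalIdeal 𝒪) 𝒪]
  {θ : CuspForm.heckeAlgebra N 2 (↑S : Set ℕ) →+* IsLocalRing.ResidueField 𝒪}
  {T : Type} [CommRing T] [IsLocalRing T] [IsNoetherianRing T]
  [IsAdicComplete (IsLocalRing.maximalIdeal T) T] [Algebra 𝒪 T] [IsLocalHom (algebraMap 𝒪 T)]
  [Module.Finite 𝒪 T] [Module.Free 𝒪 T]

/-- **S33 from `KEY`**. -/
theorem ordinary_of_key [CharZero 𝒪]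
    (hp : p.Prime) (hp2 : p ≠ 2) (hp𝒪 : (p : 𝒪) ∈ IsLocalRing.maximalIdeal 𝒪)
    (hN : p ∣ N ∧ ¬ p ^ 2 ∣ N)
    (hNS : ∀ q : ℕ, q.Prime → q ∣ N → q ∈ S)
    (H : CuspForm.HeckeGaloisRepDatum N (↑S : Set ℕ) 𝒪 θ T)
    (hres : (GaloisRepAdic.ofResidualGaloisRep H.ρ.residual).IsOrdinaryAt p)
    (hkey : ∀ (M r : ℕ) [NeZero M] [NeZero p], ¬ p ∣ M →
      ((p ≠ 3 ∧ r = 3) ∨ (p = 3 ∧ r = 2)) → r ∣ M → KeyStatement p M) :
    H.ρ.IsOrdinaryAt p := by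
  have : NeZero p := ⟨hp.ne_zero⟩
  obtain ⟨r, hr, hrp, hrne⟩ : ∃ r : ℕ, ((p ≠ 3 ∧ r = 3) ∨ (p = 3 ∧ r = 2)) ∧ r.Prime ∧ r ≠ p := by
    by_cases h : p = 3
    · exact ⟨2, Or.inr ⟨h, rfl⟩, Nat.prime_two, by omega⟩
    · exact ⟨3, Or.inl ⟨h, rfl⟩, Nat.prime_three, fun h' => h h'.symm⟩
  have : NeZero r := ⟨hrp.ne_zero⟩
  have hpr : ¬ p ∣ r := fun h => hrne ((Nat.prime_dvd_prime_iff_eq hp hrp).1 h).symm
  exact final hp hp2 hp𝒪 hN hNS H hres r hpr (fun M _ h => O.hypO p M hp hp2 h)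
    (fun M _ h h' => hypN_of_key hp hp2 h (hkey M r h hr h'))

end Fermat.Agent.S33.K11
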