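import Fermat.Agent.S33.N67

set_option autoImplicit false

/-!
# S33 / N / PairSk : skeleton of the abstract pairing chapter (N4)+(N5)   (architect: helper20)
-/

noncomputable section

namespace Fermat.Agent.S33.N

open AlgebraicCurve ModularCurve Polynomial
open Fermat.Agent.S24 (Kb FN IsFF1 isFF1_FN)
open Fermat.Agent.S19 (evD IsDiv WRStatement)
open Fermat.Agent.S19.Pair
open Fermat.Agent.GES
open Fermat.Agent.S41.WP
open Fermat.Agent.DIV (valAt)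

/-- (P1) the Gauss norm is the sup norm on the OPEN unit disc (value group divisible). -/
theorem coeff_mem_of_eval_disc {K : Type*} [Field K] [IsAlgClosed K] (A : ValuationSubring K)
    (hA : ∃ c ∈ A.nonunits, c ≠ 0) (W : K[X]) (ϖ : K)
    (h : ∀ b ∈ A.nonunits, ∃ a ∈ A, W.eval b = ϖ * a) : ∀ k, ∃ a ∈ A, W.coeff k = ϖ * a := by
  sorry

/-- (P2) = (N4)+(N5). -/
theorem close_of_bad (N : ℕ) [NeZero N] {A : ValuationSubring Kb} {p : ℕ} (hp : p.Prime)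
    (hA : A.LiesOverPrime p) (n : ℕ) [NeZero (p ^ n)] (f g : DN N (p ^ n)) (f1 : FN N) (ϖ : Kb)
    (hϖ : ∃ a ∈ A, ϖ = (p : Kb) ^ (n + 1) * a)
    (hf : cf f = 1 + algebraMap Kb (FN N) ϖ * f1)
    (Bad : Place Kb (FN N) → Prop)
    (hB1 : ∀ Q, ¬ Bad Q → 0 ≤ Q.ord f1 ∧ valAt (isFF1_FN N) Q f1 ∈ A)
    (hB2 : ∀ Q, Bad Q → Q.ord (cf g) = 0 ∧ valAt (isFF1_FN N) Q (cf g) ∈ A ∧
      (valAt (isFF1_FN N) Q (cf g))⁻¹ ∈ A) :
    Disj (K := Kb) (cf f) (cf g) ∧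
      Close A p (evD (isFF1_FN N) (dv (isFF1_FN N) (p ^ n) (cf g)) (cf f)) ∧
      Close A p (evD (isFF1_FN N) (dv (isFF1_FN N) (p ^ n) (cf f)) (cf g)) := by
  sorry

end Fermat.Agent.S33.N
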